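import Fermat.Statements.S57

set_option autoImplicit false

namespace Fermat.Agent.S57

section Descent

variable {P : Type*} [CommRing P] {R : Type*} [CommRing R]
  {N : Type*} [AddCommGroup N] [Module P N] {M : Type*} [AddCommGroup M] [Module R M]

/-- A `ψ`-semilinear additive map sends `P`-linear combinations to `R`-linear combinations. -/
theorem map_linearCombination_semilinear (ψ : P →+* R) (π : N →+ M)
    (hπ : ∀ (f : P) (x : N), π (f • x) = ψ f • π x) {ι : Type*} (e : ι → N) (l : ι →₀ P) :
    π (Finsupp.linearCombination P e l) =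
      Finsupp.linearCombination R (fun j => π (e j)) (Finsupp.mapRange ψ (map_zero ψ) l) := by
  induction l using Finsupp.induction_linear with
  | zero => simp
  | add f g hf hg =>
    rw [map_add, map_add, hf, hg, Finsupp.mapRange_add (by intro a b; exact map_add ψ a b), map_add]
  | single j a =>
    simp [hπ]

/-- Membership in `I • ⊤` of a free module is coordinatewise membership in `I`. -/
theorem mem_smul_top_iff_repr {ι : Type*} (e : Module.Basis ι P N) (I : Ideal P) (x : N) :
    x ∈ I • (⊤ : Submodule P N) ↔ ∀ j, e.repr x j ∈ I := by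
  rw [← e.span_eq, Submodule.mem_ideal_smul_span_iff_exists_sum]
  constructor
  · rintro ⟨a, ha, rfl⟩ j
    have : (a.sum fun i c => c • e i) = Finsupp.linearCombination P e a := by
      rw [Finsupp.linearCombination_apply]
    rw [this, e.repr_linearCombination]
    exact ha j
  · intro h
    refine ⟨e.repr x, h, ?_⟩
    have : ((e.repr x).sum fun i c => c • e i) = Finsupp.linearCombination P e (e.repr x) := by
      rw [Finsupp.linearCombination_apply]
    rw [this, e.linearCombination_repr]

theorem descent_of_basis [Nontrivial M]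
    (ψ : P →+* R) (hψ : Function.Surjective ψ) (I : Ideal P) (hI : I ≤ RingHom.ker ψ)
    (π : N →+ M) (hπ : ∀ (f : P) (x : N), π (f • x) = ψ f • π x)
    (hπs : Function.Surjective π)
    (hker : ∀ x : N, π x = 0 ↔ x ∈ I • (⊤ : Submodule P N))
    {ι : Type*} (e : Module.Basis ι P N) :
    Module.Free R M ∧ Module.annihilator R M = ⊥ ∧ RingHom.ker ψ = I := by
  have hli : LinearIndependent R (fun j => π (e j)) := by
    rw [linearIndependent_iff]
    intro l hl
    obtain ⟨l', rfl⟩ := Finsupp.mapRange_surjective ψ (map_zero ψ) hψ l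
    rw [← map_linearCombination_semilinear ψ π hπ, hker, mem_smul_top_iff_repr e] at hl
    ext j
    have := hl j
    rw [e.repr_linearCombination] at this
    simpa using hI this
  have hsp : ⊤ ≤ Submodule.span R (Set.range fun j => π (e j)) := by
    rintro m -
    obtain ⟨x, rfl⟩ := hπs m
    rw [← e.linearCombination_repr x, map_linearCombination_semilinear ψ π hπ]
    rw [Finsupp.mem_span_range_iff_exists_finsupp]
    exact ⟨_, rfl⟩
  let B : Module.Basis ι R M := Module.Basis.mk hli hsp
  have hBj : ∀ j, B j = π (e j) := fun j => by simp [B]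
  have hne : Nonempty ι := by
    by_contra h
    rw [not_nonempty_iff] at h
    obtain ⟨m, hm⟩ := exists_ne (0 : M)
    apply hm
    rw [← B.linearCombination_repr m]
    have : B.repr m = 0 := Subsingleton.elim _ _
    rw [this, map_zero]
  obtain ⟨j₀⟩ := hne
  refine ⟨Module.Free.of_basis B, ?_, ?_⟩
  · rw [eq_bot_iff]
    intro a ha
    rw [Module.mem_annihilator] at ha
    have h1 := ha (B j₀)
    have h2 : B.repr (a • B j₀) j₀ = a := by simp
    rw [h1] at h2
    simpa using h2.symm
  · refine le_antisymm ?_ hI
    intro f hf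
    rw [RingHom.mem_ker] at hf
    have h1 : π (f • e j₀) = 0 := by rw [hπ, hf, zero_smul]
    rw [hker, mem_smul_top_iff_repr e] at h1
    simpa using h1 j₀

end Descent

open Algebra in
theorem assembly
    {𝒪 : Type} [CommRing 𝒪] {r : ℕ} {R : Type} [CommRing R] [Algebra 𝒪 R]
    {M : Type} [AddCommGroup M] [Module R M] [Nontrivial M]
    {J : Ideal (MvPowerSeries (Fin r) 𝒪)}
    (L : Algebra.PatchingLevel 𝒪 r R M J)
    (hfree : Module.Free (MvPowerSeries (Fin r) 𝒪) L.N) :
    Module.Free R M ∧ Module.annihilator R M = ⊥ ∧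
      RingHom.ker L.ψ = Ideal.span (Set.range fun i : Fin r => L.φ (MvPowerSeries.X i)) := by
  have hI : Ideal.span (Set.range fun i : Fin r => L.φ (MvPowerSeries.X i)) ≤
      RingHom.ker (L.ψ : MvPowerSeries (Fin r) 𝒪 →+* R) := by
    rw [Ideal.span_le]
    rintro _ ⟨i, rfl⟩
    exact L.ψ_φ_X i
  exact descent_of_basis (L.ψ : MvPowerSeries (Fin r) 𝒪 →+* R) L.ψ_surjective _ hI L.π L.π_smul
    L.π_surjective L.ker_π (Module.Free.chooseBasis (MvPowerSeries (Fin r) 𝒪) L.N)

end Fermat.Agent.S57
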