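import Mathlib.RingTheory.Depth.Rees
import Mathlib.RingTheory.Regular.Free
import Mathlib.RingTheory.Ideal.AssociatedPrime.Finiteness
import Mathlib.RingTheory.LocalRing.Quotient
import Mathlib.RingTheory.Regular.IsSMulRegular
import Mathlib.Algebra.Module.FinitePresentation
import Mathlib.RingTheory.Ideal.Quotient.Noetherian

namespace Fermat.Agent.S57.FreeOfDepth

open IsLocalRing RingTheory.Sequence CategoryTheory CategoryTheory.Abelian Pointwise

universe u

lemma exists_erase_gen {R : Type u} [CommRing R] [IsLocalRing R] (s : Finset R)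
    (hs : Ideal.span (s : Set R) = maximalIdeal R) (t : R) (ht : t ∈ maximalIdeal R)
    (ht2 : t ∉ (maximalIdeal R) ^ 2) :
    ∃ s' : Finset R, s'.card + 1 ≤ s.card ∧
      Ideal.span (insert t (s' : Set R)) = maximalIdeal R := by
  classical
  have hts : t ∈ Ideal.span (s : Set R) := hs ▸ ht
  obtain ⟨f, -, hf⟩ := Submodule.mem_span_finset.mp hts
  by_cases hu : ∃ i ∈ s, IsUnit (f i)
  · obtain ⟨i, his, hi⟩ := hu
    refine ⟨s.erase i, by rw [Finset.card_erase_add_one his], ?_⟩
    apply le_antisymm
    · rw [Ideal.span_le]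
      intro x hx
      rcases hx with rfl | hx
      · exact ht
      · have : x ∈ s := Finset.mem_of_mem_erase hx
        rw [← hs]
        exact Ideal.subset_span this
    · rw [← hs, Ideal.span_le]
      intro j hj
      by_cases hji : j = i
      · subst hji
        obtain ⟨u, hu⟩ := hi
        have h1 : f j * j = t - ∑ a ∈ s.erase j, f a • a := by
          rw [← hf, ← Finset.add_sum_erase s _ hj]
          simp
        have h2 : j = (↑u⁻¹ : R) * (t - ∑ a ∈ s.erase j, f a • a) := by
          rw [← h1, ← mul_assoc, ← hu, Units.inv_mul, one_mul]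
        have h3 : (↑u⁻¹ : R) * (t - ∑ a ∈ s.erase j, f a • a) ∈
            Ideal.span (insert t (↑(s.erase j) : Set R)) := by
          apply Ideal.mul_mem_left
          apply Ideal.sub_mem
          · exact Ideal.subset_span (Set.mem_insert _ _)
          · apply Ideal.sum_mem
            intro a ha
            apply Ideal.mul_mem_left
            exact Ideal.subset_span (Set.mem_insert_of_mem _ ha)
        rwa [← h2] at h3
      · exact Ideal.subset_span (Set.mem_insert_of_mem _ (Finset.mem_erase.mpr ⟨hji, hj⟩))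
  · exfalso
    apply ht2
    push Not at hu
    rw [← hf, pow_two]
    apply Ideal.sum_mem
    intro a ha
    apply Ideal.mul_mem_mul
    · exact (IsLocalRing.mem_maximalIdeal _).mpr (hu a ha)
    · rw [← hs]; exact Ideal.subset_span ha

lemma maximalIdeal_smul_top_lt_top {R : Type u} [CommRing R] [IsLocalRing R]
    (N : Type u) [AddCommGroup N] [Module R N] [Module.Finite R N] [Nontrivial N] :
    maximalIdeal R • (⊤ : Submodule R N) < ⊤ := by
  rw [lt_top_iff_ne_top]
  intro h
  have h1 : (⊤ : Submodule R N) = ⊥ :=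
    Submodule.eq_bot_of_le_smul_of_le_jacobson_bot (maximalIdeal R) ⊤ Module.Finite.fg_top
      (le_of_eq h.symm) (IsLocalRing.maximalIdeal_le_jacobson ⊥)
  exact top_ne_bot h1

lemma nontrivial_quotSMulTop {R : Type u} [CommRing R] [IsLocalRing R]
    (N : Type u) [AddCommGroup N] [Module R N] [Module.Finite R N] [Nontrivial N]
    (t : R) (ht : t ∈ maximalIdeal R) : Nontrivial (QuotSMulTop t N) := by
  apply Submodule.Quotient.nontrivial_iff.mpr
  intro h
  have h1 : t • (⊤ : Submodule R N) ≤ maximalIdeal R • (⊤ : Submodule R N) := by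
    intro x hx
    obtain ⟨y, -, rfl⟩ := (Submodule.mem_smul_pointwise_iff_exists _ _ _).mp hx
    exact Submodule.smul_mem_smul ht Submodule.mem_top
  have h2 : (⊤ : Submodule R N) ≤ maximalIdeal R • (⊤ : Submodule R N) := le_trans (le_of_eq h.symm) h1
  exact (maximalIdeal_smul_top_lt_top N).ne (top_le_iff.mp h2)

lemma exists_isRegular_quotSMulTop {R : Type u} [CommRing R] [IsLocalRing R] [IsNoetherianRing R]
    (N : Type u) [AddCommGroup N] [Module R N] [Module.Finite R N]
    (n : ℕ) (rs : List R) (hlen : rs.length = n + 1) (hmem : ∀ r ∈ rs, r ∈ maximalIdeal R)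
    (hreg : IsRegular N rs) (t : R) (ht : t ∈ maximalIdeal R) (htreg : IsSMulRegular N t) :
    ∃ rs' : List R, rs'.length = n ∧ (∀ r ∈ rs', r ∈ maximalIdeal R) ∧
      IsRegular (QuotSMulTop t N) rs' := by
  have hN : Nontrivial N := hreg.nontrivial
  have hQ : Nontrivial (QuotSMulTop t N) := nontrivial_quotSMulTop N t ht
  have h4 : ∃ rs : List R, rs.length = n + 1 ∧ (∀ r ∈ rs, r ∈ maximalIdeal R) ∧
      RingTheory.Sequence.IsRegular (↑(ModuleCat.of R N)) rs := ⟨rs, hlen, hmem, hreg⟩
  have h2 := ((ModuleCat.exists_isRegular_tfae (maximalIdeal R) (n + 1) (ModuleCat.of R N)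
    (maximalIdeal_smul_top_lt_top N)).out 3 1).mp h4
  have h2' : ∀ i < n, Subsingleton (Ext (ModuleCat.of R (Shrink.{u} (R ⧸ maximalIdeal R)))
      (ModuleCat.of R (QuotSMulTop t N)) i) := by
    intro i hi
    have zero1 := AddCommGrpCat.isZero_of_iff_subsingleton.mpr (h2 i (by omega))
    have zero2 := AddCommGrpCat.isZero_of_iff_subsingleton.mpr (h2 (i + 1) (by omega))
    have hS : ((ModuleCat.of R N).smulShortComplex t).ShortExact :=
      IsSMulRegular.smulShortComplex_shortExact (M := ModuleCat.of R N) htreg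
    exact AddCommGrpCat.subsingleton_of_isZero <| ShortComplex.Exact.isZero_of_both_zeros
      ((Ext.covariant_sequence_exact₃' (ModuleCat.of R (Shrink.{u} (R ⧸ maximalIdeal R))) hS)
        i (i + 1) rfl)
      (zero1.eq_zero_of_src _) (zero2.eq_zero_of_tgt _)
  exact ((ModuleCat.exists_isRegular_tfae (maximalIdeal R) n (ModuleCat.of R (QuotSMulTop t N))
    (maximalIdeal_smul_top_lt_top (QuotSMulTop t N))).out 1 3).mp h2'

lemma exists_regular_not_mem_sq {R : Type u} [CommRing R] [IsLocalRing R] [IsNoetherianRing R]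
    (N : Type u) [AddCommGroup N] [Module R N] [Module.Finite R N] [Nontrivial N]
    (r0 : R) (hr0 : r0 ∈ maximalIdeal R) (hr0reg : IsSMulRegular N r0) :
    ∃ t ∈ maximalIdeal R, t ∉ maximalIdeal R ^ 2 ∧ IsSMulRegular N t := by
  classical
  by_contra hcon
  push Not at hcon
  set Ass : Finset (Ideal R) := (associatedPrimes.finite R N).toFinset with hAss
  have hsub : ((maximalIdeal R : Ideal R) : Set R) ⊆
      ⋃ i ∈ ((insert (maximalIdeal R ^ 2) Ass : Finset (Ideal R)) : Set (Ideal R)), ((id i : Ideal R) : Set R) := by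
    intro t ht
    by_cases h2 : t ∈ maximalIdeal R ^ 2
    · simp only [Set.mem_iUnion]
      exact ⟨maximalIdeal R ^ 2, by simp, h2⟩
    · have hnr : ¬ IsSMulRegular N t := hcon t ht h2
      have : t ∈ ⋃ p ∈ associatedPrimes R N, (p : Set R) := by
        rw [biUnion_associatedPrimes_eq_compl_regular]
        exact hnr
      simp only [Set.mem_iUnion] at this ⊢
      obtain ⟨p, hp, htp⟩ := this
      exact ⟨p, by simp [hAss, hp], htp⟩
  have hprime : ∀ i ∈ (insert (maximalIdeal R ^ 2) Ass : Finset (Ideal R)),
      i ≠ maximalIdeal R ^ 2 → i ≠ maximalIdeal R ^ 2 → (id i : Ideal R).IsPrime := by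
    intro i hi h1 _
    rw [Finset.mem_insert] at hi
    rcases hi with hi | hi
    · exact absurd hi h1
    · have : i ∈ associatedPrimes R N := by simpa [hAss] using hi
      exact this.isPrime
  obtain ⟨i, hi, hle⟩ := (Ideal.subset_union_prime (maximalIdeal R ^ 2) (maximalIdeal R ^ 2) hprime).mp hsub
  rw [Finset.mem_insert] at hi
  rcases hi with hi | hi
  · -- m ≤ m^2, Nakayama
    subst hi
    have hbot : maximalIdeal R = ⊥ := by
      apply Submodule.eq_bot_of_le_smul_of_le_jacobson_bot (maximalIdeal R) (maximalIdeal R)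
        (IsNoetherian.noetherian _) _ (IsLocalRing.maximalIdeal_le_jacobson ⊥)
      rw [Ideal.smul_eq_mul, ← pow_two]
      exact hle
    have : r0 = 0 := by
      have := hr0
      rw [hbot] at this
      simpa using this
    subst this
    exact not_subsingleton N (IsSMulRegular.zero_iff_subsingleton.mp hr0reg)
  · have hiass : i ∈ associatedPrimes R N := by simpa [hAss] using hi
    have : r0 ∈ ⋃ p ∈ associatedPrimes R N, (p : Set R) := by
      simp only [Set.mem_iUnion]
      exact ⟨i, hiass, hle hr0⟩
    rw [biUnion_associatedPrimes_eq_compl_regular] at this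
    exact this hr0reg

theorem free_of_isRegular_aux (n : ℕ) : ∀ (R : Type u) [CommRing R] [IsLocalRing R]
    [IsNoetherianRing R] (N : Type u) [AddCommGroup N] [Module R N] [Module.Finite R N]
    (s : Finset R) (_ : s.card ≤ n) (_ : Ideal.span (s : Set R) = maximalIdeal R)
    (rs : List R) (_ : rs.length = n) (_ : ∀ r ∈ rs, r ∈ maximalIdeal R)
    (_ : IsRegular N rs), Module.Free R N := by
  classical
  induction n with
  | zero =>
    intro R _ _ _ N _ _ _ s hs hspan rs hlen hmem hreg
    have hs0 : s = ∅ := Finset.card_eq_zero.mp (Nat.le_zero.mp hs)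
    have hbot : maximalIdeal R = ⊥ := by rw [← hspan, hs0]; simp
    have hfield : IsField R := IsLocalRing.isField_iff_maximalIdeal_eq.mpr hbot
    let _ := hfield.toField
    exact Module.Free.of_divisionRing R N
  | succ n ih =>
    intro R _ _ _ N _ _ _ s hs hspan rs hlen hmem hreg
    have hN : Nontrivial N := hreg.nontrivial
    obtain ⟨r0, rs0, rfl⟩ : ∃ r0 rs0, rs = r0 :: rs0 := by
      cases rs with
      | nil => simp at hlen
      | cons a l => exact ⟨a, l, rfl⟩
    have hr0reg : IsSMulRegular N r0 := ((isRegular_cons_iff N r0 rs0).mp hreg).1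
    have hr0 : r0 ∈ maximalIdeal R := hmem r0 (by simp)
    obtain ⟨t, ht, ht2, htreg⟩ := exists_regular_not_mem_sq N r0 hr0 hr0reg
    obtain ⟨rs', hlen', hmem', hreg'⟩ :=
      exists_isRegular_quotSMulTop N n (r0 :: rs0) hlen hmem hreg t ht htreg
    obtain ⟨s', hs'card, hs'span⟩ := exists_erase_gen s hspan t ht ht2
    have hne : Ideal.span {t} ≠ (⊤ : Ideal R) := by
      intro h
      have : (1 : R) ∈ maximalIdeal R := by
        have h1 : (1 : R) ∈ Ideal.span {t} := h ▸ Submodule.mem_top
        exact (Ideal.span_le.mpr (by simpa using ht)) h1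
      exact (Ideal.ne_top_iff_one _).mp (IsLocalRing.maximalIdeal.isMaximal R).ne_top this
    have hnt : Nontrivial (R ⧸ Ideal.span {t}) := Ideal.Quotient.nontrivial_iff.mpr hne
    have hloc : IsLocalRing (R ⧸ Ideal.span {t}) :=
      IsLocalRing.of_surjective' (Ideal.Quotient.mk (Ideal.span {t})) Ideal.Quotient.mk_surjective
    have hlh := IsLocalHom.of_surjective (Ideal.Quotient.mk (Ideal.span {t}))
      Ideal.Quotient.mk_surjective
    have hmax : (maximalIdeal R).map (Ideal.Quotient.mk (Ideal.span {t})) =
        maximalIdeal (R ⧸ Ideal.span {t}) := by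
      ext x
      obtain ⟨x, rfl⟩ := Ideal.Quotient.mk_surjective x
      simp [sup_eq_left.mpr (le_maximalIdeal hne)]
    have hfin : Module.Finite (R ⧸ Ideal.span {t}) (QuotSMulTop t N) :=
      Module.Finite.of_restrictScalars_finite R (R ⧸ Ideal.span {t}) _
    have hreg2 : IsRegular (QuotSMulTop t N) (rs'.map (Ideal.Quotient.mk (Ideal.span {t}))) :=
      ((isRegular_cons_iff' N t rs').mp (IsRegular.cons htreg hreg')).2
    have hspan' : Ideal.span ((s'.image (Ideal.Quotient.mk (Ideal.span {t})) : Finset _) : Set _) =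
        maximalIdeal (R ⧸ Ideal.span {t}) := by
      rw [← hmax, ← hs'span, Ideal.map_span, Finset.coe_image, Set.image_insert_eq]
      have h0 : (Ideal.Quotient.mk (Ideal.span {t})) t = 0 :=
        Ideal.Quotient.eq_zero_iff_mem.mpr (Ideal.subset_span (Set.mem_singleton t))
      rw [h0]
      apply le_antisymm
      · exact Ideal.span_mono (Set.subset_insert _ _)
      · rw [Ideal.span_le]
        intro x hx
        rcases hx with rfl | hx
        · exact Ideal.zero_mem _
        · exact Ideal.subset_span hx
    have hfree' : Module.Free (R ⧸ Ideal.span {t}) (QuotSMulTop t N) := by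
      refine ih (R ⧸ Ideal.span {t}) (QuotSMulTop t N)
        (s'.image (Ideal.Quotient.mk (Ideal.span {t}))) ?_ hspan'
        (rs'.map (Ideal.Quotient.mk (Ideal.span {t}))) (by simpa using hlen') ?_ hreg2
      · exact le_trans Finset.card_image_le (by omega)
      · intro r hr
        rw [List.mem_map] at hr
        obtain ⟨a, ha, rfl⟩ := hr
        rw [← hmax]
        exact Ideal.mem_map_of_mem _ (hmem' a ha)
    have hfp : Module.FinitePresentation R N := Module.finitePresentation_of_finite R N
    exact (Module.free_quotSMulTop_iff_free R N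
      (by rw [jacobson_eq_maximalIdeal ⊥ bot_ne_top]; exact ht) htreg).mp hfree'

theorem free_of_isRegular {R : Type u} [CommRing R] [IsLocalRing R]
    [IsNoetherianRing R] (N : Type u) [AddCommGroup N] [Module R N] [Module.Finite R N]
    (s : Finset R) (hspan : Ideal.span (s : Set R) = maximalIdeal R)
    (rs : List R) (hlen : s.card ≤ rs.length) (hmem : ∀ r ∈ rs, r ∈ maximalIdeal R)
    (hreg : IsRegular N rs) : Module.Free R N :=
  free_of_isRegular_aux rs.length R N s hlen hspan rs rfl hmem hreg

theorem free_of_isWeaklyRegular_ofList {R : Type u} [CommRing R] [IsLocalRing R]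
    [IsNoetherianRing R] (N : Type u) [AddCommGroup N] [Module R N] [Module.Finite R N]
    (xs : List R) (hm : Ideal.ofList xs = maximalIdeal R)
    (ys : List R) (hlen : ys.length = xs.length) (hmem : ∀ y ∈ ys, y ∈ maximalIdeal R)
    (hreg : IsWeaklyRegular N ys) : Module.Free R N := by
  classical
  rcases subsingleton_or_nontrivial N with hN | hN
  · exact Module.Free.of_subsingleton R N
  · have hreg' : IsRegular N ys :=
      (IsLocalRing.isRegular_iff_isWeaklyRegular_of_subset_maximalIdeal hmem).mpr hreg
    refine free_of_isRegular N xs.toFinset ?_ ys ?_ hmem hreg'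
    · rw [← hm, Ideal.ofList]
      congr 1
      ext x
      simp
    · rw [hlen]
      exact List.toFinset_card_le xs

end Fermat.Agent.S57.FreeOfDepth
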