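import Mathlib.RingTheory.MvPowerSeries.Equiv
import Mathlib.RingTheory.PowerSeries.Inverse
import Mathlib.RingTheory.Regular.RegularSequence
import Mathlib.RingTheory.DiscreteValuationRing.Basic

set_option autoImplicit false

open RingTheory.Sequence IsLocalRing
open scoped Pointwise

namespace Fermat.Agent.S57

section PowerSeriesStep

variable {B : Type*} [CommRing B]

/-- membership in `X • ⊤` -/
theorem mem_X_smul_top_iff (f : PowerSeries B) :
    f ∈ ((PowerSeries.X : PowerSeries B) • (⊤ : Submodule (PowerSeries B) (PowerSeries B))) ↔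
      PowerSeries.constantCoeff f = 0 := by
  rw [Submodule.mem_smul_pointwise_iff_exists, ← PowerSeries.X_dvd_iff]
  constructor
  · rintro ⟨g, -, rfl⟩
    exact ⟨g, rfl⟩
  · rintro ⟨g, rfl⟩
    exact ⟨g, trivial, rfl⟩

/-- The additive equivalence `B⟦X⟧ / X ≃+ B`. -/
noncomputable def quotXAddEquiv :
    QuotSMulTop (PowerSeries.X : PowerSeries B) (PowerSeries B) ≃+ B :=
  (QuotientAddGroup.quotientAddEquivOfEq (by
    ext f
    simp only [Submodule.mem_toAddSubgroup, AddMonoidHom.mem_ker]
    exact mem_X_smul_top_iff f)).trans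
  (QuotientAddGroup.quotientKerEquivOfSurjective
    ((PowerSeries.constantCoeff : PowerSeries B →+* B) : PowerSeries B →+ B)
    (fun b => ⟨PowerSeries.C b, by simp⟩))

theorem quotXAddEquiv_mk (f : PowerSeries B) :
    quotXAddEquiv (Submodule.Quotient.mk f) = PowerSeries.constantCoeff f := rfl

theorem isWeaklyRegular_powerSeries (xs : List B) (h : IsWeaklyRegular B xs) :
    IsWeaklyRegular (PowerSeries B) (PowerSeries.X :: xs.map (PowerSeries.C : B →+* PowerSeries B)) := by
  rw [isWeaklyRegular_cons_iff]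
  refine ⟨?_, ?_⟩
  · intro f g hfg
    exact PowerSeries.X_mul_injective hfg
  · refine (AddEquiv.isWeaklyRegular_congr (e := quotXAddEquiv (B := B)) ?_).mpr h
    rw [List.forall₂_map_left_iff, List.forall₂_same]
    intro a _ x
    induction x using Submodule.Quotient.induction_on with
    | H f =>
      rw [← Submodule.Quotient.mk_smul, quotXAddEquiv_mk, quotXAddEquiv_mk]
      simp

theorem ofList_powerSeries [IsLocalRing B] (xs : List B) (h : Ideal.ofList xs = maximalIdeal B) :
    Ideal.ofList (PowerSeries.X :: xs.map (PowerSeries.C : B →+* PowerSeries B)) =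
      maximalIdeal (PowerSeries B) := by
  rw [Ideal.ofList_cons, ← Ideal.map_ofList, h]
  apply le_antisymm
  · rw [sup_le_iff, Ideal.span_le, Ideal.map_le_iff_le_comap]
    constructor
    · intro f hf
      rw [Set.mem_singleton_iff] at hf
      subst hf
      rw [SetLike.mem_coe, mem_maximalIdeal, mem_nonunits_iff, PowerSeries.isUnit_iff_constantCoeff]
      simp
    · intro a ha
      rw [Ideal.mem_comap, mem_maximalIdeal, mem_nonunits_iff, PowerSeries.isUnit_iff_constantCoeff]
      simpa using ha
  · intro f hf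
    rw [mem_maximalIdeal, mem_nonunits_iff, PowerSeries.isUnit_iff_constantCoeff] at hf
    rw [f.eq_X_mul_shift_add_const]
    refine Ideal.add_mem _ (Ideal.mem_sup_left ?_) (Ideal.mem_sup_right ?_)
    · exact Ideal.mul_mem_right _ _ (Ideal.subset_span rfl)
    · exact Ideal.mem_map_of_mem _ (by simpa using hf)

end PowerSeriesStep

section Transfer

variable {B B' : Type*} [CommRing B] [CommRing B']

theorem isWeaklyRegular_map_ringEquiv (e : B ≃+* B') (xs : List B) (h : IsWeaklyRegular B xs) :
    IsWeaklyRegular B' (xs.map e) := by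
  refine (AddEquiv.isWeaklyRegular_congr (e := e.toAddEquiv) ?_).mp h
  rw [List.forall₂_map_right_iff, List.forall₂_same]
  intro a _ x
  simp

theorem ofList_map_ringEquiv [IsLocalRing B] [IsLocalRing B'] (e : B ≃+* B') (xs : List B)
    (h : Ideal.ofList xs = maximalIdeal B) :
    Ideal.ofList (xs.map e) = maximalIdeal B' := by
  rw [← map_ringEquiv_maximalIdeal e, ← h]
  exact (Ideal.map_ofList (e : B →+* B') xs).symm

end Transfer

section Main

variable (𝒪 : Type*) [CommRing 𝒪] [IsDomain 𝒪] [IsDiscreteValuationRing 𝒪]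

theorem exists_params (ϖ : 𝒪) (hϖ : Irreducible ϖ) (r : ℕ) :
    ∃ xs : List (MvPowerSeries (Fin r) 𝒪), xs.length = r + 1 ∧
      Ideal.ofList xs = maximalIdeal (MvPowerSeries (Fin r) 𝒪) ∧
      IsWeaklyRegular (MvPowerSeries (Fin r) 𝒪) xs ∧
      ∀ x ∈ xs, x = MvPowerSeries.C ϖ ∨ ∃ i, x = MvPowerSeries.X i := by
  induction r with
  | zero =>
    let e : 𝒪 ≃ₐ[𝒪] MvPowerSeries (Fin 0) 𝒪 := (MvPowerSeries.isEmptyEquiv (Fin 0) 𝒪).symm
    refine ⟨[ϖ].map e.toRingEquiv, by simp, ?_, ?_, ?_⟩
    · apply ofList_map_ringEquiv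
      rw [Ideal.ofList_singleton, hϖ.maximalIdeal_eq]
    · apply isWeaklyRegular_map_ringEquiv
      rw [isWeaklyRegular_singleton_iff]
      exact IsSMulRegular.of_ne_zero hϖ.ne_zero  
    · intro x hx
      left
      simp only [List.map_cons, List.map_nil, List.mem_singleton] at hx
      rw [hx]
      have := e.commutes ϖ
      rw [MvPowerSeries.algebraMap_apply, Algebra.algebraMap_self, RingHom.id_apply] at this
      exact this
  | succ r ih =>
    obtain ⟨xs, hlen, hspan, hreg, hmem⟩ := ih
    let e : PowerSeries (MvPowerSeries (Fin r) 𝒪) ≃ₐ[𝒪] MvPowerSeries (Fin (r + 1)) 𝒪 :=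
      (MvPowerSeries.finSuccEquiv 𝒪 r).symm
    refine ⟨(PowerSeries.X :: xs.map (PowerSeries.C : _ →+* PowerSeries _)).map e.toRingEquiv,
      by simp [hlen], ?_, ?_, ?_⟩
    · apply ofList_map_ringEquiv
      exact ofList_powerSeries xs hspan
    · apply isWeaklyRegular_map_ringEquiv
      exact isWeaklyRegular_powerSeries xs hreg
    · intro x hx
      simp only [List.map_cons, List.map_map, List.mem_cons, List.mem_map, Function.comp_apply] at hx
      rcases hx with rfl | ⟨y, hy, rfl⟩
      · right
        refine ⟨0, ?_⟩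
        change (MvPowerSeries.finSuccEquiv 𝒪 r).symm PowerSeries.X = _
        rw [AlgEquiv.symm_apply_eq, MvPowerSeries.finSuccEquiv_X_zero]
      · rcases hmem y hy with rfl | ⟨i, rfl⟩
        · left
          change (MvPowerSeries.finSuccEquiv 𝒪 r).symm _ = _
          rw [AlgEquiv.symm_apply_eq, MvPowerSeries.finSuccEquiv_C]
        · right
          refine ⟨i.succ, ?_⟩
          change (MvPowerSeries.finSuccEquiv 𝒪 r).symm _ = _
          rw [AlgEquiv.symm_apply_eq, MvPowerSeries.finSuccEquiv_X_succ]

end Main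

end Fermat.Agent.S57
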