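import Fermat.Prelude.Def_Algebra_PatchingDatum
import Fermat.Agent.S57.PowerSeriesParams
import Mathlib.RingTheory.Regular.Flat
import Mathlib.RingTheory.DiscreteValuationRing.Basic

set_option autoImplicit false

open RingTheory.Sequence IsLocalRing
open scoped Pointwise TensorProduct

namespace Fermat.Agent.S57


section

variable {𝒪 : Type} [CommRing 𝒪] {r : ℕ} {R : Type} [CommRing R] [Algebra 𝒪 R]
  {M : Type} [AddCommGroup M] [Module R M] (L : Algebra.PatchingLevel 𝒪 r R M ⊥)

/-- the semilinear parametrisation `P^d → N`. -/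
noncomputable def paramHom : (Fin L.d → MvPowerSeries (Fin r) 𝒪) →+ L.N where
  toFun c := ∑ i, L.φ (c i) • L.b i
  map_zero' := by simp
  map_add' c c' := by simp [add_smul, Finset.sum_add_distrib]

theorem paramHom_apply (c : Fin L.d → MvPowerSeries (Fin r) 𝒪) :
    paramHom L c = ∑ i, L.φ (c i) • L.b i := rfl

theorem paramHom_smul (a : MvPowerSeries (Fin r) 𝒪) (c : Fin L.d → MvPowerSeries (Fin r) 𝒪) :
    paramHom L (a • c) = L.φ a • paramHom L c := by
  simp [paramHom_apply, Finset.smul_sum, mul_smul]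

theorem paramHom_bijective : Function.Bijective (paramHom L) := by
  constructor
  · rw [injective_iff_map_eq_zero]
    intro c hc
    have := (L.b_rel c).mp hc
    funext i
    simpa using this i
  · intro x
    obtain ⟨c, hc⟩ := L.b_span x
    exact ⟨c, hc.symm⟩

noncomputable def paramEquiv : (Fin L.d → MvPowerSeries (Fin r) 𝒪) ≃+ L.N :=
  AddEquiv.ofBijective (paramHom L) (paramHom_bijective L)

theorem paramEquiv_smul (a : MvPowerSeries (Fin r) 𝒪) (c : Fin L.d → MvPowerSeries (Fin r) 𝒪) :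
    paramEquiv L (a • c) = L.φ a • paramEquiv L c := paramHom_smul L a c

theorem finite_N : Module.Finite (MvPowerSeries (Fin r) 𝒪) L.N := by
  let σ : MvPowerSeries (Fin r) 𝒪 →+* MvPowerSeries (Fin r) 𝒪 := L.φ
  let f : (Fin L.d → MvPowerSeries (Fin r) 𝒪) →ₛₗ[σ] L.N :=
    { toFun := paramHom L
      map_add' := map_add _
      map_smul' := fun a c => paramHom_smul L a c }
  exact Module.Finite.of_surjective f (paramHom_bijective L).2

theorem isWeaklyRegular_N (xs : List (MvPowerSeries (Fin r) 𝒪))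
    (h : IsWeaklyRegular (MvPowerSeries (Fin r) 𝒪) xs) :
    IsWeaklyRegular L.N (xs.map L.φ) := by
  have h1 : IsWeaklyRegular (Fin L.d → MvPowerSeries (Fin r) 𝒪) xs :=
    (LinearEquiv.isWeaklyRegular_congr (TensorProduct.rid _ _) xs).mp
      (h.isWeaklyRegular_lTensor (M₂ := Fin L.d → MvPowerSeries (Fin r) 𝒪))
  refine (AddEquiv.isWeaklyRegular_congr (e := paramEquiv L) ?_).mp h1
  rw [List.forall₂_map_right_iff, List.forall₂_same]
  intro a _ c
  exact paramEquiv_smul L a c

end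

section

variable {𝒪 : Type} [CommRing 𝒪] [IsDomain 𝒪] [IsDiscreteValuationRing 𝒪]
  {r : ℕ} {R : Type} [CommRing R] [Algebra 𝒪 R]
  {M : Type} [AddCommGroup M] [Module R M] [Nontrivial M] (L : Algebra.PatchingLevel 𝒪 r R M ⊥)

theorem phi_X_mem_maximalIdeal (i : Fin r) :
    L.φ (MvPowerSeries.X i) ∈ maximalIdeal (MvPowerSeries (Fin r) 𝒪) := by
  rw [mem_maximalIdeal, mem_nonunits_iff]
  intro hu
  have h1 : IsUnit (L.ψ (L.φ (MvPowerSeries.X i))) := hu.map L.ψ
  rw [L.ψ_φ_X i] at h1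
  have : Nontrivial R := Module.nontrivial R M
  exact not_isUnit_zero h1

theorem phi_C_mem_maximalIdeal (ϖ : 𝒪) (hϖ : Irreducible ϖ) :
    L.φ (MvPowerSeries.C ϖ) ∈ maximalIdeal (MvPowerSeries (Fin r) 𝒪) := by
  have h : L.φ (MvPowerSeries.C ϖ) = MvPowerSeries.C ϖ := by
    have := L.φ.commutes ϖ
    rwa [MvPowerSeries.algebraMap_apply, Algebra.algebraMap_self, RingHom.id_apply] at this
  rw [h, mem_maximalIdeal, mem_nonunits_iff, MvPowerSeries.isUnit_iff_constantCoeff]
  simpa using hϖ.not_isUnit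

/-- Summary: `N` is a finite module with a weakly regular sequence of length `r + 1` inside the
maximal ideal, and the maximal ideal is generated by `r + 1` elements which form a weakly regular
sequence on the ring. -/
theorem exists_regular_sequences :
    Module.Finite (MvPowerSeries (Fin r) 𝒪) L.N ∧
    ∃ xs ys : List (MvPowerSeries (Fin r) 𝒪), xs.length = r + 1 ∧
      Ideal.ofList xs = maximalIdeal (MvPowerSeries (Fin r) 𝒪) ∧
      IsWeaklyRegular (MvPowerSeries (Fin r) 𝒪) xs ∧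
      ys.length = r + 1 ∧ (∀ y ∈ ys, y ∈ maximalIdeal (MvPowerSeries (Fin r) 𝒪)) ∧
      IsWeaklyRegular L.N ys := by
  refine ⟨finite_N L, ?_⟩
  obtain ⟨ϖ, hϖ⟩ := IsDiscreteValuationRing.exists_irreducible 𝒪
  obtain ⟨xs, hlen, hspan, hreg, hmem⟩ := exists_params 𝒪 ϖ hϖ r
  refine ⟨xs, xs.map L.φ, hlen, hspan, hreg, by simpa using hlen, ?_, isWeaklyRegular_N L xs hreg⟩
  intro y hy
  rw [List.mem_map] at hy
  obtain ⟨x, hx, rfl⟩ := hy
  rcases hmem x hx with rfl | ⟨i, rfl⟩
  · exact phi_C_mem_maximalIdeal L ϖ hϖ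
  · exact phi_X_mem_maximalIdeal L i

end

end Fermat.Agent.S57
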